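import Fermat.Agent.GR.B.LatMain
import Fermat.Agent.GR.B.LatEigen
import Fermat.Agent.S49.Lifting
import Fermat.Agent.S49.Normalize

/-!
# S41, module W, file Final: from a lattice vector to a normalized eigenform
-/

set_option autoImplicit false

open CongruenceSubgroup
open Fermat.Agent.GR Fermat.Agent.GR.B

namespace Fermat.Agent.S41.W

/-- every element of the full Hecke algebra is integral over `ℤ` (it acts faithfully on `Λ`). -/
theorem isIntegral_heckeFull (M : ℕ) [NeZero M] (t : H.HeckeFull M) : IsIntegral ℤ t := by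
  rw [← isIntegral_algHom_iff (heckeLam M).toIntAlgHom (heckeLam_injective M)]
  exact LinearMap.isIntegral _

open scoped TensorProduct in
/-- `x ↦ 1 ⊗ x` is injective on `Λ`. -/
theorem Final_tmul_eq_zero (M : ℕ) [NeZero M] (y : Lam M) (h : (1 : ℂ) ⊗ₜ[ℤ] y = 0) : y = 0 := by
  obtain ⟨e, he⟩ := (univBasis M).exists_tensorEquiv
  have h1 := he 1 y
  rw [h, map_zero, one_smul] at h1
  apply latHecke_castHom_injective M
  rw [← h1]
  refine AddMonoidHom.ext fun γ => ?_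
  simp

/-- the ideal of the Hecke operators which send `x` into `p Λ`. -/
def Final_ideal (M : ℕ) [NeZero M] (p : ℕ) (x : Lam M) : Ideal (H.HeckeFull M) where
  carrier := {t | ∃ y : Lam M, heckeLam M t x = (p : ℤ) • y}
  zero_mem' := ⟨0, by simp⟩
  add_mem' := by
    rintro s t ⟨y, hy⟩ ⟨z, hz⟩
    exact ⟨y + z, by rw [map_add, LinearMap.add_apply, hy, hz, smul_add]⟩
  smul_mem' := by
    rintro s t ⟨y, hy⟩
    exact ⟨heckeLam M s y, by
      rw [smul_eq_mul, map_mul, Module.End.mul_apply, hy, map_smul]⟩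

theorem Final_mem_ideal (M : ℕ) [NeZero M] (p : ℕ) (x : Lam M) (t : H.HeckeFull M) :
    t ∈ Final_ideal M p x ↔ ∃ y : Lam M, heckeLam M t x = (p : ℤ) • y := Iff.rfl

open scoped TensorProduct in
/-- the Hecke action on `ℂ ⊗ Λ`. -/
noncomputable def Final_rho (M : ℕ) [NeZero M] :
    H.HeckeFull M →+* Module.End ℂ (ℂ ⊗[ℤ] Lam M) :=
  (Module.End.baseChangeHom ℤ ℂ (Lam M)).toRingHom.comp (heckeLam M)

theorem Final_rho_apply (M : ℕ) [NeZero M] (t : H.HeckeFull M) :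
    Final_rho M t = (heckeLam M t).baseChange ℂ := rfl

/-- A vector `x ∈ Λ(M) ∖ p Λ(M)` which is an eigenvector mod `p` of the `T_ℓ` (`ℓ` good) with
eigenvalues `a ℓ` and satisfies `U_q² x = x` gives a normalized eigenform `g` of level `M` with
`a_ℓ(g) ≡ a ℓ` and `a_q(g)² = 1`. -/
theorem exists_newform (M : ℕ) [NeZero M] (p q : ℕ) (hq : q.Prime) (a : ℕ → ℤ)
    (good : ℕ → Prop) (x : Lam M) (hx : ¬ ∃ y : Lam M, x = (p : ℤ) • y)
    (hT : ∀ (ℓ : ℕ) (hℓ : ℓ.Prime) (hℓM : ¬ ℓ ∣ M), good ℓ →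
      ∃ y : Lam M, heckeLam M (H.HeckeFull.T hℓ hℓM) x - a ℓ • x = (p : ℤ) • y)
    (hU : heckeLam M (genP M q hq) (heckeLam M (genP M q hq) x) = x) :
    ∃ (g : CuspForm (Gamma0 M) 2) (𝔪' : Ideal (integralClosure ℤ ℂ)),
      g.IsNormalizedEigenform ∧ 𝔪'.IsMaximal ∧ (p : integralClosure ℤ ℂ) ∈ 𝔪' ∧
      (∀ ℓ : ℕ, ℓ.Prime → ¬ ℓ ∣ M → good ℓ →
        ∃ c : integralClosure ℤ ℂ, (c : ℂ) = ModularFormClass.qCoeff g ℓ ∧
          c - ((a ℓ : ℤ) : integralClosure ℤ ℂ) ∈ 𝔪') ∧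
      ModularFormClass.qCoeff g q ^ 2 = 1 := by
  classical
  -- the ideal `𝔟` and a maximal ideal `𝔫` above it
  have hb_ne : Final_ideal M p x ≠ ⊤ := by
    intro h
    have h1 : (1 : H.HeckeFull M) ∈ Final_ideal M p x := by rw [h]; exact Submodule.mem_top
    obtain ⟨y, hy⟩ := h1
    rw [map_one, Module.End.one_apply] at hy
    exact hx ⟨y, hy⟩
  obtain ⟨𝔫, h𝔫max, h𝔫le⟩ := Ideal.exists_le_maximal _ hb_ne
  have h𝔫prime : 𝔫.IsPrime := h𝔫max.isPrime
  have hp𝔫 : ((p : ℤ) : H.HeckeFull M) ∈ 𝔫 := by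
    apply h𝔫le
    refine ⟨x, ?_⟩
    rw [map_intCast, Module.End.intCast_apply]
  have hT𝔫 : ∀ (ℓ : ℕ) (hℓ : ℓ.Prime) (hℓM : ¬ ℓ ∣ M), good ℓ →
      H.HeckeFull.T hℓ hℓM - ((a ℓ : ℤ) : H.HeckeFull M) ∈ 𝔫 := by
    intro ℓ hℓ hℓM hg
    apply h𝔫le
    obtain ⟨y, hy⟩ := hT ℓ hℓ hℓM hg
    refine ⟨y, ?_⟩
    rw [map_sub, LinearMap.sub_apply, map_intCast, Module.End.intCast_apply]
    exact hy
  -- the subspace `U_q² = 1`
  set u : H.HeckeFull M := genP M q hq with hu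
  set W : Submodule ℂ (TensorProduct ℤ ℂ (Lam M)) := LinearMap.ker (Final_rho M (u * u - 1)) with hW
  have hcomm : ∀ s t w, Final_rho M s (Final_rho M t w) = Final_rho M t (Final_rho M s w) := by
    intro s t w
    rw [← Module.End.mul_apply, ← Module.End.mul_apply, ← map_mul, ← map_mul, mul_comm]
  have hst : ∀ t, ∀ w ∈ W, Final_rho M t w ∈ W := by
    intro t w hw
    rw [hW, LinearMap.mem_ker] at hw ⊢
    rw [hcomm, hw, map_zero]
  have hxW : (1 : ℂ) ⊗ₜ[ℤ] x ∈ W := by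
    rw [hW, LinearMap.mem_ker, Final_rho_apply, LinearMap.baseChange_tmul, map_sub, map_mul,
      map_one, LinearMap.sub_apply, Module.End.mul_apply, Module.End.one_apply, hU, sub_self,
      TensorProduct.tmul_zero]
  have hfaith : ∀ s, (∀ w ∈ W, Final_rho M s w = 0) → s ∈ 𝔫 := by
    intro s hs
    apply h𝔫le
    have h1 := hs _ hxW
    rw [Final_rho_apply, LinearMap.baseChange_tmul] at h1
    exact ⟨0, by rw [Final_tmul_eq_zero M _ h1, smul_zero]⟩
  obtain ⟨z, hzW, hz0, χ, hχ, hker⟩ :=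
    Fermat.Agent.S49.exists_eigenvector_aux (Final_rho M) 𝔫 _ W rfl hst hfaith
  have hinj : ∀ c d : ℂ, c • z = d • z → c = d := fun c d hcd =>
    smul_left_injective ℂ hz0 hcd
  let χh : H.HeckeFull M →+* ℂ :=
    { toFun := χ
      map_one' := hinj _ _ (by rw [← hχ, one_smul, map_one, Module.End.one_apply])
      map_mul' := fun s t => hinj _ _ (by
        rw [← hχ, map_mul, Module.End.mul_apply, hχ, map_smul, hχ, smul_smul, mul_comm])
      map_zero' := hinj _ _ (by rw [← hχ, zero_smul, map_zero, LinearMap.zero_apply])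
      map_add' := fun s t => hinj _ _ (by
        rw [← hχ, map_add, LinearMap.add_apply, hχ, hχ, add_smul]) }
  have hχh : ∀ t, χh t = χ t := fun _ => rfl
  have hu2 : χ u ^ 2 = 1 := by
    have h1 : χ (u * u - 1) • z = 0 := by
      rw [← hχ]
      exact hzW
    have h2 : χh (u * u - 1) = 0 := (smul_eq_zero.mp h1).resolve_right hz0
    rw [map_sub, map_mul, map_one, hχh] at h2
    linear_combination h2
  -- back to cusp forms
  obtain ⟨Ψ, hΨ, -⟩ := exists_esEquiv M (univBasis M)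
  obtain ⟨⟨f₁, f₂⟩, hf⟩ : ∃ P, Ψ P = z := ⟨Ψ.symm z, Ψ.apply_symm_apply z⟩
  have hfe : ∀ t : H.HeckeFull M,
      (t : Module.End ℂ (CuspForm (Gamma0 M) 2)) f₁ = χ t • f₁ ∧
      (t : Module.End ℂ (CuspForm (Gamma0 M) 2)) f₂ = χ t • f₂ := by
    intro t
    have h1 := hΨ t f₁ f₂
    rw [hf, ← Final_rho_apply, hχ, ← hf, ← map_smul] at h1
    have h2 := Ψ.injective h1
    rw [Prod.smul_mk, Prod.mk.injEq] at h2
    exact h2
  obtain ⟨g₀, hg₀, hg₀e⟩ : ∃ g₀ : CuspForm (Gamma0 M) 2, g₀ ≠ 0 ∧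
      ∀ t : H.HeckeFull M, (t : Module.End ℂ (CuspForm (Gamma0 M) 2)) g₀ = χ t • g₀ := by
    by_cases h1 : f₁ = 0
    · refine ⟨f₂, ?_, fun t => (hfe t).2⟩
      intro h2
      apply hz0
      rw [← hf, h1, h2]
      exact map_zero Ψ
    · exact ⟨f₁, h1, fun t => (hfe t).1⟩
  let lam : ℕ → ℂ := fun ℓ => if hℓ : ℓ.Prime then χ (genP M ℓ hℓ) else 0
  obtain ⟨g, hg, hlam⟩ := Fermat.Agent.S49.exists_normalized g₀ hg₀ lam
    (fun ℓ hℓ hℓN => by
      simp only [lam, dif_pos hℓ]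
      rw [← heckeP_of_not_dvd M hℓ hℓN]
      exact hg₀e (genP M ℓ hℓ))
    (fun ℓ hℓ hℓN => by
      simp only [lam, dif_pos hℓ]
      rw [← heckeP_of_dvd M hℓ hℓN]
      exact hg₀e (genP M ℓ hℓ))
  -- going up
  have hint : ∀ t, χh t ∈ integralClosure ℤ ℂ := fun t =>
    map_isIntegral_int χh (isIntegral_heckeFull M t)
  let χ' : H.HeckeFull M →+* integralClosure ℤ ℂ :=
    χh.codRestrict (integralClosure ℤ ℂ) hint
  letI : Algebra (H.HeckeFull M) (integralClosure ℤ ℂ) := χ'.toAlgebra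
  haveI : IsScalarTower ℤ (H.HeckeFull M) (integralClosure ℤ ℂ) :=
    IsScalarTower.of_algebraMap_eq' (Subsingleton.elim _ _)
  haveI : Algebra.IsIntegral (H.HeckeFull M) (integralClosure ℤ ℂ) :=
    ⟨fun x => IsIntegral.tower_top (R := ℤ) (Algebra.IsIntegral.isIntegral x)⟩
  obtain ⟨Q, hQmax, hQ⟩ := Ideal.exists_ideal_over_maximal_of_isIntegral
    (S := integralClosure ℤ ℂ) 𝔫 (by
      intro t ht
      apply hker
      have : χ' t = 0 := ht
      exact congrArg Subtype.val this)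
  have hmemQ : ∀ t ∈ 𝔫, χ' t ∈ Q := by
    intro t ht
    rw [← hQ] at ht
    exact ht
  refine ⟨g, Q, hg, hQmax, ?_, ?_, ?_⟩
  · have := hmemQ _ hp𝔫
    rw [map_intCast] at this
    exact_mod_cast this
  · intro ℓ hℓ hℓM hgood
    refine ⟨χ' (H.HeckeFull.T hℓ hℓM), ?_, ?_⟩
    · rw [hlam ℓ hℓ]
      simp only [lam, dif_pos hℓ]
      have : H.HeckeFull.T hℓ hℓM = genP M ℓ hℓ :=
        Subtype.ext (heckeP_of_not_dvd M hℓ hℓM).symm
      rw [this]
      rfl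
    · have := hmemQ _ (hT𝔫 ℓ hℓ hℓM hgood)
      rw [map_sub, map_intCast] at this
      exact this
  · rw [hlam q hq]
    simp only [lam, dif_pos hq]
    exact hu2

end Fermat.Agent.S41.W
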