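import Fermat.Agent.S41.W.Final
import Fermat.Agent.S41.C.Socle
import Fermat.Agent.GR.B.MultOne

/-!
# S41, module W, file Occ: the eigensystem of `f` occurs in `Hom(Γ₀(N), 𝔽_p)`
-/

set_option autoImplicit false

open CongruenceSubgroup
open Fermat.Agent.GR Fermat.Agent.GR.B

namespace Fermat.Agent.S41.W

theorem Occ_intCast_apply (N : ℕ) [NeZero N] (m : ℤ) (f : CuspForm (Gamma0 N) 2) :
    (((m : H.HeckeFull N) : Module.End ℂ (CuspForm (Gamma0 N) 2))) f = (m : ℂ) • f := by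
  have h : ((m : H.HeckeFull N) : Module.End ℂ (CuspForm (Gamma0 N) 2)) =
      (m : Module.End ℂ (CuspForm (Gamma0 N) 2)) := rfl
  rw [h, Module.End.intCast_apply, Int.cast_smul_eq_zsmul]

theorem Occ_ne_zero (N : ℕ) [NeZero N] (f : CuspForm (Gamma0 N) 2)
    (hf : f.IsNormalizedEigenform) : f ≠ 0 := by
  intro h0
  have h1 := hf.qCoeff_one
  have h2 : f = (0 : ℂ) • f := by rw [zero_smul, h0]
  rw [h2, S49.qCoeff_smul, zero_mul] at h1
  exact zero_ne_one h1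

theorem Occ_castHom_sub_zsmul (N : ℕ) (p : ℕ) (u x : Lam N) (n : ℤ) :
    castHom N (ZMod p) (u - n • x) =
      castHom N (ZMod p) u - (n : ZMod p) • castHom N (ZMod p) x := by
  refine AddMonoidHom.ext fun γ => ?_
  simp [castHom_apply]

/-- the eigencharacter of a normalized eigenform. -/
theorem exists_eigenchar (N : ℕ) [NeZero N] (f : CuspForm (Gamma0 N) 2)
    (hf : f.IsNormalizedEigenform) :
    ∃ lam : H.HeckeFull N →+* integralClosure ℤ ℂ,
      ∀ (ℓ : ℕ) (hℓ : ℓ.Prime), ((lam (genP N ℓ hℓ) : integralClosure ℤ ℂ) : ℂ) =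
        ModularFormClass.qCoeff f ℓ := by
  have hf0 : f ≠ 0 := Occ_ne_zero N f hf
  have hgen := mem_cuspEigen_of_isNormalizedEigenform N f hf
  have heig : ∀ t : H.HeckeFull N, ∃ c : ℂ,
      (t : Module.End ℂ (CuspForm (Gamma0 N) 2)) f = c • f := by
    intro t
    induction t using heckeFull_induction with
    | hgen p hp => exact ⟨_, hgen p hp⟩
    | hint n => exact ⟨n, Occ_intCast_apply N n f⟩
    | hadd s t hs ht =>
      obtain ⟨c, hc⟩ := hs
      obtain ⟨d, hd⟩ := ht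
      exact ⟨c + d, by rw [Subalgebra.coe_add, LinearMap.add_apply, hc, hd, add_smul]⟩
    | hmul s t hs ht =>
      obtain ⟨c, hc⟩ := hs
      obtain ⟨d, hd⟩ := ht
      exact ⟨c * d, by
        rw [Subalgebra.coe_mul, Module.End.mul_apply, hd, map_smul, hc, smul_smul, mul_comm]⟩
  choose χ hχ' using heig
  have hinj : ∀ x y : ℂ, x • f = y • f → x = y := fun x y hxy =>
    smul_left_injective ℂ hf0 hxy
  let χh : H.HeckeFull N →+* ℂ :=
    { toFun := χ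
      map_one' := hinj _ _ (by rw [← hχ', one_smul]; rfl)
      map_mul' := fun s t => hinj _ _ (by
        rw [← hχ', Subalgebra.coe_mul, Module.End.mul_apply, hχ', map_smul, hχ', smul_smul,
          mul_comm])
      map_zero' := hinj _ _ (by rw [← hχ', zero_smul]; rfl)
      map_add' := fun s t => hinj _ _ (by
        rw [← hχ', Subalgebra.coe_add, LinearMap.add_apply, hχ', hχ', add_smul]) }
  have hint : ∀ t, χh t ∈ integralClosure ℤ ℂ := fun t =>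
    map_isIntegral_int χh (isIntegral_heckeFull N t)
  refine ⟨χh.codRestrict (integralClosure ℤ ℂ) hint, fun ℓ hℓ => ?_⟩
  show χ (genP N ℓ hℓ) = _
  apply hinj
  rw [← hχ']
  exact hgen ℓ hℓ

theorem exists_mod_p_eigenvector (N : ℕ) [NeZero N] (p : ℕ) [Fact p.Prime] (q : ℕ)
    [Fact q.Prime] (hqN : ¬ q ∣ N) (f : CuspForm (Gamma0 N) 2) (hf : f.IsNormalizedEigenform)
    (𝔪 : Ideal (integralClosure ℤ ℂ)) (hmax : 𝔪.IsMaximal) (hpm : (p : integralClosure ℤ ℂ) ∈ 𝔪)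
    (a : ℕ → ℤ) (good : ℕ → Prop)
    (hcong : ∀ ℓ : ℕ, ℓ.Prime → ¬ ℓ ∣ N → good ℓ →
      ∃ c : integralClosure ℤ ℂ, (c : ℂ) = ModularFormClass.qCoeff f ℓ ∧
        c - ((a ℓ : ℤ) : integralClosure ℤ ℂ) ∈ 𝔪)
    (hLR : ∃ c : integralClosure ℤ ℂ, (c : ℂ) = ModularFormClass.qCoeff f q ∧
      c ^ 2 - ((q : integralClosure ℤ ℂ) + 1) ^ 2 ∈ 𝔪) :
    ∃ (ε : ℤ) (φ : Additive (Gamma0 N) →+ ZMod p), (ε = 1 ∨ ε = -1) ∧ Kills φ ∧ φ ≠ 0 ∧
      (∀ (ℓ : ℕ) [Fact ℓ.Prime] (hℓN : ¬ ℓ ∣ N), good ℓ →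
        (repsT ℓ hℓN).op (ZMod p) φ = ((a ℓ : ℤ) : ZMod p) • φ) ∧
      (repsT q hqN).op (ZMod p) φ = ((ε * (q + 1) : ℤ) : ZMod p) • φ := by
  obtain ⟨lam, hlam⟩ := exists_eigenchar N f hf
  have hprime : 𝔪.IsPrime := hmax.isPrime
  have h𝔫 : (𝔪.comap lam).IsPrime := Ideal.comap_isPrime lam 𝔪
  have hp𝔫 : (p : H.HeckeFull N) ∈ 𝔪.comap lam := by
    rw [Ideal.mem_comap, map_natCast]
    exact hpm
  have hgood : ∀ (ℓ : ℕ) (hℓ : ℓ.Prime), ¬ ℓ ∣ N → good ℓ →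
      genP N ℓ hℓ - ((a ℓ : ℤ) : H.HeckeFull N) ∈ 𝔪.comap lam := by
    intro ℓ hℓ hℓN hg
    obtain ⟨c, hc, hcm⟩ := hcong ℓ hℓ hℓN hg
    have : lam (genP N ℓ hℓ) = c := Subtype.ext (by rw [hlam, hc])
    rw [Ideal.mem_comap, map_sub, map_intCast, this]
    exact hcm
  have hq : q.Prime := Fact.out
  obtain ⟨ε, hε, hεm⟩ : ∃ ε : ℤ, (ε = 1 ∨ ε = -1) ∧
      genP N q hq - ((ε * (q + 1) : ℤ) : H.HeckeFull N) ∈ 𝔪.comap lam := by
    obtain ⟨c, hc, hcm⟩ := hLR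
    have hcl : lam (genP N q hq) = c := Subtype.ext (by rw [hlam, hc])
    have hfac : (c - ((q : integralClosure ℤ ℂ) + 1)) * (c + ((q : integralClosure ℤ ℂ) + 1)) ∈ 𝔪 := by
      have : (c - ((q : integralClosure ℤ ℂ) + 1)) * (c + ((q : integralClosure ℤ ℂ) + 1)) =
          c ^ 2 - ((q : integralClosure ℤ ℂ) + 1) ^ 2 := by ring
      rw [this]
      exact hcm
    rcases hprime.mem_or_mem hfac with h | h
    · refine ⟨1, Or.inl rfl, ?_⟩
      rw [Ideal.mem_comap, map_sub, map_intCast, hcl]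
      have : (((1 * (q + 1) : ℤ)) : integralClosure ℤ ℂ) = (q : integralClosure ℤ ℂ) + 1 := by
        push_cast; ring
      rw [this]
      exact h
    · refine ⟨-1, Or.inr rfl, ?_⟩
      rw [Ideal.mem_comap, map_sub, map_intCast, hcl]
      have : c - (((-1 * (q + 1) : ℤ)) : integralClosure ℤ ℂ) =
          c + ((q : integralClosure ℤ ℂ) + 1) := by
        push_cast; ring
      rw [this]
      exact h
  obtain ⟨x, hx, hxt⟩ := C.exists_socle (heckeLam N) (heckeLam_injective N) (𝔪.comap lam)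
    h𝔫.ne_top p (Fact.out : p.Prime).ne_zero hp𝔫
  have key : ∀ (ℓ : ℕ) [Fact ℓ.Prime] (hℓN : ¬ ℓ ∣ N) (n : ℤ),
      genP N ℓ Fact.out - ((n : ℤ) : H.HeckeFull N) ∈ 𝔪.comap lam →
      (repsT ℓ hℓN).op (ZMod p) (castHom N (ZMod p) x) =
        ((n : ℤ) : ZMod p) • castHom N (ZMod p) x := by
    intro ℓ _ hℓN n hmem
    obtain ⟨y, hy⟩ := hxt _ hmem
    have hT : H.HeckeFull.T Fact.out hℓN = genP N ℓ Fact.out :=
      Subtype.ext (heckeP_of_not_dvd N Fact.out hℓN).symm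
    have h1 : heckeLam N (genP N ℓ Fact.out) x - n • x = (p : ℤ) • y := by
      rw [← hy, map_sub, map_intCast, LinearMap.sub_apply, Module.End.intCast_apply]
    have h2 := congrArg (castHom N (ZMod p)) h1
    rw [Occ_castHom_sub_zsmul, ← hT, castHom_heckeLam_T,
      (castHom_zmod_eq_zero_iff N p _).2 ⟨y, rfl⟩, sub_eq_zero] at h2
    exact h2
  refine ⟨ε, castHom N (ZMod p) x, hε, kills_castHom (ZMod p) x, ?_, ?_, ?_⟩
  · intro h0
    exact hx ((castHom_zmod_eq_zero_iff N p x).1 h0)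
  · intro ℓ _ hℓN hg
    exact key ℓ hℓN (a ℓ) (hgood ℓ Fact.out hℓN hg)
  · exact key q hqN _ hεm

end Fermat.Agent.S41.W
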